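import Mathlib.Combinatorics.Additive.Energy
import Mathlib.Combinatorics.Additive.PluenneckeRuzsa
import Mathlib.Data.Real.Basic
import Mathlib.Algebra.Order.BigOperators.Ring.Finset
import Mathlib.Algebra.Order.Chebyshev
import Mathlib.Data.Rat.Cast.Order
import Mathlib.Tactic.Abel
import Mathlib.Tactic.FieldSimp
import Mathlib.Tactic.Linarith

/-!
# The theorem of Balog, Szemerédi and Gowers

The differences with at least `δ |A|` representations form a dense graph on `A`. By dependent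
random choice a large `A' ⊆ A` has any two points joined by many paths of length four, so every
element of `A' - A'` has many representations as `x₁ - x₂ + x₃ - x₄` by popular differences.
-/

set_option autoImplicit false

noncomputable section

namespace FA.BalogSzemerediGowers

open Finset
open scoped Pointwise

variable {G : Type*} [AddCommGroup G] [DecidableEq G]

/-- The number of representations of `x` as a difference in `A`. -/
def repDiff (A : Finset G) (x : G) : ℕ := #((A ×ˢ A).filter fun p => p.1 - p.2 = x)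

theorem repDiff_le (A : Finset G) (x : G) : repDiff A x ≤ #A := by
  refine card_le_card_of_injOn Prod.fst (fun p hp => (mem_product.1 (mem_filter.1 hp).1).1)
    fun p hp p' hp' h => ?_
  rw [mem_coe, mem_filter] at hp hp'
  refine Prod.ext h ?_
  have := hp.2.trans hp'.2.symm
  rw [h] at this
  exact sub_right_injective this

theorem sum_repDiff (A : Finset G) : ∑ x ∈ A - A, repDiff A x = #A ^ 2 := by
  rw [sq, ← card_product]
  exact (card_eq_sum_card_fiberwise fun p hp =>
    sub_mem_sub (mem_product.1 hp).1 (mem_product.1 hp).2).symm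

theorem addEnergy_eq_sum (A : Finset G) : A.addEnergy A = ∑ x ∈ A - A, repDiff A x ^ 2 := by
  rw [Finset.addEnergy, card_eq_sum_card_fiberwise (f := fun x => x.1.1 - x.1.2) (t := A - A)
    fun x hx => sub_mem_sub (mem_product.1 (mem_product.1 (mem_filter.1 hx).1).1).1
      (mem_product.1 (mem_product.1 (mem_filter.1 hx).1).1).2]
  refine sum_congr rfl fun x _ => ?_
  rw [repDiff, sq, ← card_product]
  refine card_nbij' (fun q => (q.1, (q.2.2, q.2.1))) (fun q => (q.1, (q.2.2, q.2.1))) ?_ ?_ ?_ ?_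
  · intro q hq
    simp only [mem_coe, mem_filter, mem_product] at hq ⊢
    refine ⟨⟨hq.1.1.1, hq.2⟩, ⟨hq.1.1.2.2, hq.1.1.2.1⟩, ?_⟩
    rw [← hq.2, sub_eq_sub_iff_add_eq_add, add_comm, ← hq.1.2]
  · intro q hq
    simp only [mem_coe, mem_filter, mem_product] at hq ⊢
    refine ⟨⟨⟨hq.1.1, hq.2.1.2, hq.2.1.1⟩, ?_⟩, hq.1.2⟩
    have := sub_eq_sub_iff_add_eq_add.1 (hq.1.2.trans hq.2.2.symm)
    rw [this]
    exact add_comm _ _
  · exact fun q _ => rfl
  · exact fun q _ => rfl

/-- **Dependent random choice** for a relation of density `δ`. -/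
theorem exists_subset_many_paths {ι : Type*} [DecidableEq ι] (V : Finset ι) (R : ι → ι → Prop)
    [DecidableRel R] {δ : ℝ} (hδ : 0 < δ)
    (hR : δ * (#V : ℝ) ^ 2 ≤ #((V ×ˢ V).filter fun p => R p.1 p.2)) (hV : V.Nonempty) :
    ∃ V' ⊆ V, δ * #V / 4 ≤ #V' ∧ ∀ a ∈ V', ∀ a' ∈ V', δ ^ 5 * (#V : ℝ) ^ 3 / 1024 ≤
      #((V ×ˢ V ×ˢ V).filter fun q => (R a q.1 ∧ R q.2.1 q.1) ∧ R q.2.1 q.2.2 ∧ R a' q.2.2) := by
  classical
  set n : ℝ := (#V : ℝ) with hn
  have hn0 : 0 < n := Nat.cast_pos.2 hV.card_pos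
  set nb : ι → Finset ι := fun b => V.filter fun a => R a b with hnb
  set cod : ι → ι → ℕ := fun a a' => #(V.filter fun b => R a b ∧ R a' b) with hcod
  set bad : ι → ι → Prop := fun a a' => (cod a a' : ℝ) < δ ^ 2 * n / 16 with hbad
  set badIn : ι → ℕ := fun b => #((nb b ×ˢ nb b).filter fun p => bad p.1 p.2) with hbadIn
  -- the degrees
  have hdeg : δ * n ^ 2 ≤ ∑ b ∈ V, (#(nb b) : ℝ) := by
    refine hR.trans_eq ?_
    rw [← Nat.cast_sum]
    congr 1
    simp only [hnb, card_filter]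
    rw [sum_product, sum_comm]
  have hsq : δ ^ 2 * n ^ 3 ≤ ∑ b ∈ V, (#(nb b) : ℝ) ^ 2 := by
    have h := sq_sum_le_card_mul_sum_sq (s := V) (f := fun b => (#(nb b) : ℝ))
    rw [← hn] at h
    refine le_of_mul_le_mul_left ?_ hn0
    calc n * (δ ^ 2 * n ^ 3) = (δ * n ^ 2) ^ 2 := by ring
      _ ≤ (∑ b ∈ V, (#(nb b) : ℝ)) ^ 2 := pow_le_pow_left₀ (by positivity) hdeg 2
      _ ≤ _ := h
  have hbadsum : ∑ b ∈ V, (badIn b : ℝ) ≤ δ ^ 2 * n / 16 * n ^ 2 := by
    have e : ∑ b ∈ V, badIn b = ∑ p ∈ (V ×ˢ V).filter (fun p => bad p.1 p.2), cod p.1 p.2 := by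
      have e1 : ∀ b, badIn b =
          #(((V ×ˢ V).filter fun p => bad p.1 p.2).filter fun p => R p.1 b ∧ R p.2 b) := fun b => by
        simp only [hbadIn, hnb]
        congr 1
        ext p
        simp only [mem_filter, mem_product]
        tauto
      rw [sum_congr rfl fun b _ => e1 b]
      simp only [hcod, card_filter]
      rw [sum_comm]
    rw [← Nat.cast_sum, e, Nat.cast_sum]
    refine (sum_le_card_nsmul _ _ (δ ^ 2 * n / 16) fun p hp => (mem_filter.1 hp).2.le).trans ?_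
    rw [nsmul_eq_mul, mul_comm]
    refine mul_le_mul_of_nonneg_left ?_ (by positivity)
    exact (Nat.cast_le.2 (card_filter_le _ _)).trans_eq (by rw [card_product, Nat.cast_mul, sq, hn])
  obtain ⟨b, hb, hbest⟩ : ∃ b ∈ V, δ ^ 2 * n ^ 2 / 2 ≤ (#(nb b) : ℝ) ^ 2 - 8 * badIn b := by
    refine exists_le_of_sum_le hV ?_
    rw [sum_const, nsmul_eq_mul, ← hn, sum_sub_distrib, ← mul_sum]
    linarith [mul_le_mul_of_nonneg_left hbadsum (show (0 : ℝ) ≤ 8 by norm_num)]
  set N := nb b with hN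
  have hbad0 : (0 : ℝ) ≤ badIn b := Nat.cast_nonneg _
  have hNlarge : δ * n / 2 ≤ #N := by
    refine (abs_le_of_sq_le_sq' ?_ (Nat.cast_nonneg _)).2
    nlinarith [mul_pos hδ hn0]
  have hN0 : 0 < (#N : ℝ) := lt_of_lt_of_le (by positivity) hNlarge
  set partners : ι → ℕ := fun a => #(N.filter fun c => bad a c) with hpartners
  set V' := N.filter fun a => (partners a : ℝ) ≤ (#N : ℝ) / 4 with hV'
  refine ⟨V', fun a ha => (mem_filter.1 (mem_filter.1 ha).1).1, ?_, fun a ha a' ha' => ?_⟩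
  · have hsum : ∑ a ∈ N, partners a = badIn b := by
      simp only [hpartners, hbadIn, card_filter]
      rw [sum_product]
    have h1 : (#(N.filter fun a => ¬(partners a : ℝ) ≤ (#N : ℝ) / 4) : ℝ) * ((#N : ℝ) / 4) ≤
        badIn b := by
      rw [← hsum, Nat.cast_sum, ← nsmul_eq_mul]
      refine (card_nsmul_le_sum _ _ _ fun a ha => (not_le.1 (mem_filter.1 ha).2).le).trans ?_
      exact sum_le_sum_of_subset_of_nonneg (filter_subset _ _) fun _ _ _ => Nat.cast_nonneg _
    have h2 := card_filter_add_card_filter_not (s := N) (fun a => (partners a : ℝ) ≤ (#N : ℝ) / 4)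
    have h3 : (#V' : ℝ) + #(N.filter fun a => ¬(partners a : ℝ) ≤ (#N : ℝ) / 4) = #N := by
      exact_mod_cast h2
    have h4 : (#(N.filter fun a => ¬(partners a : ℝ) ≤ (#N : ℝ) / 4) : ℝ) ≤ (#N : ℝ) / 2 := by
      refine le_of_mul_le_mul_right (h1.trans ?_) (show (0 : ℝ) < (#N : ℝ) / 4 by positivity)
      nlinarith [mul_pos hδ hn0]
    linarith
  -- many paths
  have hbadsymm : ∀ x y, bad x y → bad y x := fun x y h => by
    simpa only [hbad, hcod, and_comm] using h
  obtain ⟨haN, hpa⟩ := mem_filter.1 ha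
  obtain ⟨haN', hpa'⟩ := mem_filter.1 ha'
  set good := N.filter fun c => ¬bad a c ∧ ¬bad a' c with hgood
  have hgoodcard : (#N : ℝ) / 2 ≤ #good := by
    have : #N ≤ #good + partners a + partners a' := by
      rw [hpartners]
      refine (card_le_card (t := good ∪ N.filter (bad a) ∪ N.filter (bad a')) fun c hc => ?_).trans
        ((card_union_le _ _).trans (Nat.add_le_add_right (card_union_le _ _) _))
      simp only [mem_union, mem_filter, hgood]
      tauto
    have h' : (#N : ℝ) ≤ #good + partners a + partners a' := by exact_mod_cast this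
    linarith
  calc δ ^ 5 * n ^ 3 / 1024 = δ * n / 4 * (δ ^ 2 * n / 16) ^ 2 := by ring
    _ ≤ (#N : ℝ) / 2 * (δ ^ 2 * n / 16) ^ 2 :=
        mul_le_mul_of_nonneg_right (by linarith) (sq_nonneg _)
    _ ≤ (#good : ℝ) * (δ ^ 2 * n / 16) ^ 2 := mul_le_mul_of_nonneg_right hgoodcard (sq_nonneg _)
    _ ≤ ∑ c ∈ good, (cod a c : ℝ) * cod c a' := by
        rw [← nsmul_eq_mul]
        refine card_nsmul_le_sum _ _ _ fun c hc => ?_
        obtain ⟨-, g1, g2⟩ := mem_filter.1 hc
        rw [sq]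
        exact mul_le_mul (not_lt.1 g1) (not_lt.1 fun h => g2 (hbadsymm _ _ h)) (by positivity)
          (Nat.cast_nonneg _)
    _ ≤ _ := by
        rw [← sum_congr rfl fun c _ => Nat.cast_mul (cod a c) (cod c a'), ← Nat.cast_sum,
          Nat.cast_le]
        simp only [hcod, ← card_product]
        rw [← card_sigma]
        refine card_le_card_of_injOn (fun s => (s.2.1, s.1, s.2.2)) (fun s hs => ?_) ?_
        · simp only [mem_coe, mem_sigma, mem_product, mem_filter, hgood, hN, hnb] at hs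
          rw [mem_coe, mem_filter, mem_product, mem_product]
          exact ⟨⟨hs.2.1.1, hs.1.1.1, hs.2.2.1⟩, hs.2.1.2, hs.2.2.2.1, hs.2.2.2.2⟩
        · rintro ⟨c, u, v⟩ _ ⟨c', u', v'⟩ _ h
          simp only [Prod.mk.injEq] at h
          obtain ⟨rfl, rfl, rfl⟩ := h
          rfl

/-- **The theorem of Balog, Szemerédi and Gowers**, with explicit constants. -/
theorem exists_subset_small_doubling {A : Finset G} (hA : A.Nonempty) {K : ℝ}
    (hE : (#A : ℝ) ^ 3 ≤ K * A.addEnergy A) :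
    0 < K ∧ ∃ A' ⊆ A, A'.Nonempty ∧ (#A : ℝ) ≤ 8 * K * #A' ∧
      (#(A' - A') : ℝ) ≤ 2 ^ 22 * K ^ 10 * #A' ∧
      (#(A' + A') : ℝ) ≤ (2 ^ 22 * K ^ 10) ^ 2 * #A' := by
  classical
  set n : ℝ := (#A : ℝ) with hn
  have hn0 : 0 < n := Nat.cast_pos.2 hA.card_pos
  have hK : 0 < K := by
    by_contra h
    have : K * (A.addEnergy A : ℝ) ≤ 0 :=
      mul_nonpos_of_nonpos_of_nonneg (not_lt.1 h) (Nat.cast_nonneg _)
    linarith [pow_pos hn0 3]
  obtain ⟨δ, hδdef⟩ : ∃ δ, δ = 1 / (2 * K) := ⟨_, rfl⟩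
  have hδ : 0 < δ := by rw [hδdef]; positivity
  set P := (A - A).filter fun x => δ * n ≤ (repDiff A x : ℝ) with hP
  have hsumP : δ * n ^ 2 ≤ ∑ x ∈ P, (repDiff A x : ℝ) := by
    have h1 : (A.addEnergy A : ℝ) ≤ n * ∑ x ∈ P, (repDiff A x : ℝ) + δ * n * n ^ 2 := by
      rw [addEnergy_eq_sum, Nat.cast_sum, ← sum_filter_add_sum_filter_not (A - A)
        (fun x => δ * n ≤ (repDiff A x : ℝ)), mul_sum]
      refine add_le_add (sum_le_sum fun x _ => ?_) ?_
      · rw [Nat.cast_pow, sq]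
        exact mul_le_mul_of_nonneg_right (Nat.cast_le.2 (repDiff_le A x)) (Nat.cast_nonneg _)
      · refine (sum_le_sum (g := fun x => δ * n * (repDiff A x : ℝ)) fun x hx => ?_).trans ?_
        · rw [Nat.cast_pow, sq]
          exact mul_le_mul_of_nonneg_right (not_le.1 (mem_filter.1 hx).2).le (Nat.cast_nonneg _)
        · rw [← mul_sum]
          refine mul_le_mul_of_nonneg_left ?_ (by positivity)
          rw [hn, ← Nat.cast_pow, ← sum_repDiff, Nat.cast_sum]
          exact sum_le_sum_of_subset_of_nonneg (filter_subset _ _) fun _ _ _ => Nat.cast_nonneg _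
    refine le_of_mul_le_mul_left ?_ hn0
    have h2 : 2 * δ * n ^ 3 ≤ (A.addEnergy A : ℝ) := by
      rw [hδdef]
      field_simp
      linarith
    linarith
  obtain ⟨A', hA', hsize, hpaths⟩ := exists_subset_many_paths A (fun a b => a - b ∈ P) hδ (by
      refine hsumP.trans ?_
      rw [← Nat.cast_sum, Nat.cast_le, card_eq_sum_card_fiberwise (f := fun p : G × G => p.1 - p.2)
        (s := (A ×ˢ A).filter fun p => p.1 - p.2 ∈ P) (t := P) fun p hp => (mem_filter.1 hp).2]
      refine sum_le_sum fun x hx => card_le_card fun p hp => ?_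
      rw [mem_filter] at hp
      rw [mem_filter, mem_filter]
      exact ⟨⟨hp.1, hp.2 ▸ hx⟩, hp.2⟩) hA
  have hA'0 : 0 < (#A' : ℝ) := lt_of_lt_of_le (by positivity) hsize
  have hA'ne : A'.Nonempty := card_pos.1 (Nat.cast_pos.1 hA'0)
  have hdiff : (#(A' - A') : ℝ) ≤ 2 ^ 22 * K ^ 10 * #A' := by
    have hPcard : δ * #P ≤ n := by
      refine le_of_mul_le_mul_left ?_ hn0
      calc n * (δ * #P) = #P • (δ * n) := by rw [nsmul_eq_mul]; ring
        _ ≤ ∑ x ∈ P, (repDiff A x : ℝ) := card_nsmul_le_sum _ _ _ fun x hx => (mem_filter.1 hx).2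
        _ ≤ ∑ x ∈ A - A, (repDiff A x : ℝ) :=
            sum_le_sum_of_subset_of_nonneg (filter_subset _ _) fun _ _ _ => Nat.cast_nonneg _
        _ = n * n := by rw [← Nat.cast_sum, sum_repDiff, hn]; push_cast; ring
    have hcount : (#(A' - A') : ℝ) * (δ ^ 5 * n ^ 3 / 1024) ≤ (#P : ℝ) ^ 4 := by
      set Q := P ×ˢ P ×ˢ P ×ˢ P with hQ
      have hQcard : (#Q : ℝ) = (#P : ℝ) ^ 4 := by
        simp only [hQ, card_product, Nat.cast_mul]
        ring
      set f : G × G × G × G → G := fun t => t.1 - t.2.1 + t.2.2.1 - t.2.2.2 with hf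
      have hfib : ∀ d ∈ A' - A', δ ^ 5 * n ^ 3 / 1024 ≤
          ((#((Q.filter fun t => f t ∈ A' - A').filter fun t => f t = d) : ℕ) : ℝ) := by
        intro d hd
        obtain ⟨a, ha, a', ha', rfl⟩ := mem_sub.1 hd
        refine (hpaths a ha a' ha').trans (Nat.cast_le.2 (card_le_card_of_injOn
          (fun q => (a - q.1, q.2.1 - q.1, q.2.1 - q.2.2, a' - q.2.2)) (fun q hq => ?_) ?_))
        · simp only [mem_coe, mem_filter, mem_product, hQ, hf] at hq ⊢
          obtain ⟨-, ⟨h1, h2⟩, h3, h4⟩ := hq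
          have e : a - q.1 - (q.2.1 - q.1) + (q.2.1 - q.2.2) - (a' - q.2.2) = a - a' := by abel
          exact ⟨⟨⟨h1, h2, h3, h4⟩, e ▸ hd⟩, e⟩
        · rintro ⟨u, c, v⟩ _ ⟨u', c', v'⟩ _ h
          simp only [Prod.mk.injEq] at h
          obtain rfl := sub_right_injective h.1
          obtain rfl := sub_right_injective h.2.2.2
          obtain rfl := sub_left_injective h.2.1
          rfl
      rw [← hQcard, ← nsmul_eq_mul]
      refine (card_nsmul_le_sum _ _ _ hfib).trans ?_
      rw [← Nat.cast_sum, Nat.cast_le, ← card_eq_sum_card_fiberwise (f := f)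
        (s := Q.filter fun t => f t ∈ A' - A') (t := A' - A') fun t ht => (mem_filter.1 ht).2]
      exact card_filter_le _ _
    have hδK : (2 : ℝ) * K * δ = 1 := by rw [hδdef]; field_simp
    refine le_of_mul_le_mul_right ?_ (show 0 < δ ^ 9 * n ^ 3 by positivity)
    calc (#(A' - A') : ℝ) * (δ ^ 9 * n ^ 3)
        = 1024 * δ ^ 4 * ((#(A' - A') : ℝ) * (δ ^ 5 * n ^ 3 / 1024)) := by ring
      _ ≤ 1024 * δ ^ 4 * (#P : ℝ) ^ 4 := mul_le_mul_of_nonneg_left hcount (by positivity)
      _ = 1024 * (δ * #P) ^ 4 := by ring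
      _ ≤ 1024 * n ^ 4 := mul_le_mul_of_nonneg_left
          (pow_le_pow_left₀ (by positivity) hPcard 4) (by norm_num)
      _ = 4096 * n ^ 3 * (n / 4) := by ring
      _ = 4096 * (2 * K * δ) ^ 10 * n ^ 3 * (n / 4) := by rw [hδK, one_pow, mul_one]
      _ = 2 ^ 22 * K ^ 10 * (δ * n / 4) * (δ ^ 9 * n ^ 3) := by ring
      _ ≤ _ := by gcongr
  refine ⟨hK, A', hA', hA'ne, ?_, hdiff, ?_⟩
  · rw [hδdef] at hsize
    field_simp at hsize
    linarith
  · have h := pluennecke_ruzsa_inequality_nsmul_sub hA'ne A' 2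
    rw [two_nsmul] at h
    have h' := (NNRat.cast_le (K := ℝ)).2 h
    push_cast at h'
    refine h'.trans (mul_le_mul_of_nonneg_right (pow_le_pow_left₀ (by positivity) ?_ 2)
      (Nat.cast_nonneg _))
    rw [div_le_iff₀ hA'0]
    exact hdiff

end FA.BalogSzemerediGowers
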